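/-
Program G (S56), block GW-Euler, base case, node (MACKEY-0), part 1 (GEN-ORB).  helper7.
Mathlib only.  For a group `D` acting on a finite set `P` and a character `φ : D →* Kˣ`, the
space of functions `F : P → K` with `F (d • v) = φ d * F v` has dimension the number of
`D`-orbits on which `φ` is trivial on the stabilisers.
-/
import Mathlib

set_option autoImplicit false
set_option linter.style.haveILetI false

namespace Fermat.Agent.TW.Euler.Base.MackeyOrb

open MulAction

variable {D : Type*} [Group D] {P : Type*} [MulAction D P] {K : Type*} [Field K] (φ : D →* Kˣ)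

/-- The space of `φ`-equivariant functions `P → K`: `F (d • v) = φ d * F v`. -/
def eqFun (P : Type*) [MulAction D P] : Submodule K (P → K) where
  carrier := {F | ∀ (d : D) (v : P), F (d • v) = (φ d : K) * F v}
  add_mem' {F F'} hF hF' d v := by
    simp only [Pi.add_apply, hF d v, hF' d v, mul_add]
  zero_mem' d v := by simp
  smul_mem' c F hF d v := by
    simp only [Pi.smul_apply, smul_eq_mul, hF d v]; ring

variable {φ} in
theorem mem_eqFun {F : P → K} : F ∈ eqFun φ P ↔ ∀ (d : D) (v : P), F (d • v) = (φ d : K) * F v :=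
  Iff.rfl

/-- the orbit space -/
abbrev Orb (D : Type*) [Group D] (P : Type*) [MulAction D P] : Type _ := orbitRel.Quotient D P

/-- An orbit is good if `φ` is trivial on the stabiliser of (the representative of) the orbit. -/
def Good (ω : Orb D P) : Prop := ∀ d ∈ stabilizer D ω.out, φ d = 1

/-- a chosen element moving the representative of the orbit of `x` to `x` -/
theorem exists_smul_out (x : P) : ∃ γ : D, γ • (Quotient.mk'' x : Orb D P).out = x := by
  have h : (Quotient.mk'' x : Orb D P).out ∈ orbit D x := by
    rw [← orbitRel_apply]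
    exact Quotient.exact' (Quotient.out_eq' _)
  obtain ⟨γ, hγ⟩ := h
  exact ⟨γ⁻¹, by rw [← hγ, inv_smul_smul]⟩

/-- the chosen element -/
noncomputable def gam (x : P) : D := (exists_smul_out (D := D) x).choose

theorem gam_smul (x : P) : gam (D := D) x • (Quotient.mk'' x : Orb D P).out = x :=
  (exists_smul_out (D := D) x).choose_spec

theorem mk_smul (d : D) (x : P) : (Quotient.mk'' (d • x) : Orb D P) = Quotient.mk'' x :=
  Quotient.sound' (by
    show d • x ∈ orbit D x
    exact mem_orbit x d)


variable {φ}

/-- an equivariant function vanishes on bad orbits -/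
theorem eq_zero_of_not_good {F : P → K} (hF : F ∈ eqFun φ P) {ω : Orb D P} (hω : ¬ Good φ ω) :
    F ω.out = 0 := by
  unfold Good at hω
  push Not at hω
  obtain ⟨s, hs, hφ⟩ := hω
  have h1 := hF s ω.out
  rw [mem_stabilizer_iff.mp hs] at h1
  have h2 : ((φ s : K) - 1) * F ω.out = 0 := by rw [sub_mul, one_mul, ← h1, sub_self]
  rcases mul_eq_zero.mp h2 with h3 | h3
  · exfalso
    apply hφ
    apply Units.ext
    rw [Units.val_one]
    exact sub_eq_zero.mp h3
  · exact h3

theorem apply_eq_gam_mul {F : P → K} (hF : F ∈ eqFun φ P) (x : P) :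
    F x = (φ (gam (D := D) x) : K) * F (Quotient.mk'' x : Orb D P).out := by
  rw [← hF, gam_smul]

variable (φ) in
/-- the value attached to an orbit by a function on the good orbits -/
noncomputable def orbVal (c : {ω : Orb D P // Good φ ω} → K) (ω : Orb D P) : K := by
  classical
  exact if h : Good φ ω then c ⟨ω, h⟩ else 0

theorem orbVal_of_good (c : {ω : Orb D P // Good φ ω} → K) {ω : Orb D P} (h : Good φ ω) :
    orbVal φ c ω = c ⟨ω, h⟩ := by
  classical
  unfold orbVal
  rw [dif_pos h]

theorem orbVal_of_not_good (c : {ω : Orb D P // Good φ ω} → K) {ω : Orb D P} (h : ¬ Good φ ω) :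
    orbVal φ c ω = 0 := by
  classical
  unfold orbVal
  rw [dif_neg h]

/-- On a good orbit, `φ ∘ gam` is multiplicative along the action. -/
theorem phi_gam_smul {x : P} (hx : Good φ (Quotient.mk'' x : Orb D P)) (d : D) :
    φ (gam (D := D) (d • x)) = φ d * φ (gam (D := D) x) := by
  -- both `gam (d • x)` and `d * gam x` move the representative to `d • x`
  have e : (Quotient.mk'' (d • x) : Orb D P) = Quotient.mk'' x := mk_smul d x
  have h1 : gam (D := D) (d • x) • (Quotient.mk'' x : Orb D P).out = d • x := by
    have := gam_smul (D := D) (d • x)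
    rwa [e] at this
  have h2 : (d * gam (D := D) x) • (Quotient.mk'' x : Orb D P).out = d • x := by
    rw [mul_smul, gam_smul]
  have h3 : (d * gam (D := D) x)⁻¹ * gam (D := D) (d • x) ∈
      stabilizer D (Quotient.mk'' x : Orb D P).out := by
    rw [mem_stabilizer_iff, mul_smul, h1, ← h2, inv_smul_smul]
  have h4 := hx _ h3
  rw [map_mul, map_inv, inv_mul_eq_one] at h4
  rw [← h4, map_mul]

variable (φ) in
/-- the extension of a function on the good orbits to an equivariant function -/
noncomputable def extend (c : {ω : Orb D P // Good φ ω} → K) : eqFun φ P :=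
  ⟨fun x => (φ (gam (D := D) x) : K) * orbVal φ c (Quotient.mk'' x), by
    intro d v
    show (φ (gam (D := D) (d • v)) : K) * orbVal φ c (Quotient.mk'' (d • v)) =
      (φ d : K) * ((φ (gam (D := D) v) : K) * orbVal φ c (Quotient.mk'' v))
    rw [mk_smul d v]
    by_cases hv : Good φ (Quotient.mk'' v : Orb D P)
    · rw [phi_gam_smul hv d, Units.val_mul, mul_assoc]
    · rw [orbVal_of_not_good c hv, mul_zero, mul_zero, mul_zero]⟩

theorem extend_apply (c : {ω : Orb D P // Good φ ω} → K) (x : P) :
    (extend φ c : P → K) x = (φ (gam (D := D) x) : K) * orbVal φ c (Quotient.mk'' x) := rfl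

variable (φ) (P) in
/-- **Equivariant functions are determined by their values on the good orbits.** -/
noncomputable def eqFunEquiv : eqFun φ P ≃ₗ[K] ({ω : Orb D P // Good φ ω} → K) where
  toFun F := fun ω => (F : P → K) ω.1.out
  map_add' F F' := rfl
  map_smul' c F := rfl
  invFun c := extend φ c
  left_inv F := by
    apply Subtype.ext
    funext x
    rw [extend_apply]
    by_cases hx : Good φ (Quotient.mk'' x : Orb D P)
    · rw [orbVal_of_good _ hx]
      exact (apply_eq_gam_mul F.2 x).symm
    · rw [orbVal_of_not_good _ hx, mul_zero, apply_eq_gam_mul F.2 x,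
        eq_zero_of_not_good F.2 hx, mul_zero]
  right_inv c := by
    funext ω
    show (extend φ c : P → K) ω.1.out = c ω
    rw [extend_apply]
    have e : (Quotient.mk'' ω.1.out : Orb D P) = ω.1 := Quotient.out_eq' ω.1
    have hg : Good φ (Quotient.mk'' ω.1.out : Orb D P) := by rw [e]; exact ω.2
    have h1 : gam (D := D) ω.1.out ∈ stabilizer D ω.1.out := by
      rw [mem_stabilizer_iff]
      have := gam_smul (D := D) ω.1.out
      rwa [e] at this
    have h2 : φ (gam (D := D) ω.1.out) = 1 := ω.2 _ h1
    rw [h2, Units.val_one, one_mul, orbVal_of_good _ hg]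
    congr 1
    exact Subtype.ext e

/-- **(GEN-ORB)** the dimension of the space of `φ`-equivariant functions on a finite `D`-set. -/
theorem finrank_eqFun [Finite P] :
    Module.finrank K (eqFun φ P) = Nat.card {ω : Orb D P // Good φ ω} := by
  classical
  haveI : Finite (Orb D P) := Quotient.finite _
  haveI : Fintype {ω : Orb D P // Good φ ω} := Fintype.ofFinite _
  rw [LinearEquiv.finrank_eq (eqFunEquiv (φ := φ) (P := P)), Module.finrank_fintype_fun_eq_card,
    Nat.card_eq_fintype_card]

/-- Goodness of the orbit of `x` can be tested on the stabiliser of `x` itself. -/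
theorem good_mk_iff (x : P) :
    Good φ (Quotient.mk'' x : Orb D P) ↔ ∀ d ∈ stabilizer D x, φ d = 1 := by
  have hg := gam_smul (D := D) x
  set γ := gam (D := D) x with hγ
  set y := (Quotient.mk'' x : Orb D P).out with hy
  have key : ∀ d : D, d ∈ stabilizer D x ↔ γ⁻¹ * d * γ ∈ stabilizer D y := by
    intro d
    rw [mem_stabilizer_iff, mem_stabilizer_iff, mul_smul, mul_smul, hg, inv_smul_eq_iff, hg]
  have hφ : ∀ d : D, φ (γ⁻¹ * d * γ) = φ d := by
    intro d
    rw [map_mul, map_mul, map_inv, mul_comm (φ γ)⁻¹, mul_assoc, inv_mul_cancel, mul_one]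
  constructor
  · intro h d hd
    rw [← hφ d]
    exact h _ ((key d).mp hd)
  · intro h d hd
    have h1 : γ * d * γ⁻¹ ∈ stabilizer D x := by
      rw [key]
      have : γ⁻¹ * (γ * d * γ⁻¹) * γ = d := by group
      rw [this]; exact hd
    have h2 := h _ h1
    rw [map_mul, map_mul, map_inv, mul_comm (φ γ), mul_assoc, mul_inv_cancel, mul_one] at h2
    exact h2

end Fermat.Agent.TW.Euler.Base.MackeyOrb
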