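/-
Program G (S56), block GW-Euler, base case, node (MACKEY-0), part 2.  helper7.
The `Z`-invariants of `Coind_D^G k'(φ)` (helper8's `baseRep`): identification with the
`φ`-equivariant functions on the `D`-set `G ⧸ Z`, the dimension formula
`finrank_{𝔽_p} = [k' : 𝔽_p] · #{double cosets D g Z : φ trivial on D ∩ g Z g⁻¹}`, and the cases
`Z = ⊤`, `Z = ⊥`, `Z` cyclic.
-/
import Fermat.Agent.TW.Euler.Base.MackeyOrb.Orbits
import Fermat.Agent.TW.Euler.Base.Defs

set_option autoImplicit false
set_option linter.style.haveILetI false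

-- the `ZMod p`-module structure on `coindV` must be `Submodule.module` (as in helper8's `baseRep`)
attribute [-instance] AddSubgroupClass.instZModModule

namespace Fermat.Agent.TW.Euler.Base.MackeyOrb

open MulAction Fermat.Agent.TW.Euler

variable (p : ℕ) [Fact p.Prime] {G : Type} [Group G] (D Z : Subgroup G)
  {k' : Type} [Field k'] [Algebra (ZMod p) k'] (φ : D →* k'ˣ)

/-- The `Z`-invariants of `Coind_D^G k'(φ)`. -/
def coindInv : Submodule (ZMod p) (Representation.coindV D.subtype (chiRep (p := p) φ)) where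
  carrier := {f | ∀ z ∈ Z, Representation.coind D.subtype (chiRep (p := p) φ) z f = f}
  add_mem' {f f'} hf hf' z hz := by rw [map_add, hf z hz, hf' z hz]
  zero_mem' z _ := map_zero _
  smul_mem' c f hf z hz := by rw [map_smul, hf z hz]

variable {D Z φ} in
theorem mem_coindInv {f : Representation.coindV D.subtype (chiRep (p := p) φ)} :
    f ∈ coindInv p D Z φ ↔ ∀ z ∈ Z, Representation.coind D.subtype (chiRep (p := p) φ) z f = f :=
  Iff.rfl

/-- pointwise form of the invariance -/
theorem coindInv_apply_mul {f : Representation.coindV D.subtype (chiRep (p := p) φ)}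
    (hf : f ∈ coindInv p D Z φ) (x : G) {z : G} (hz : z ∈ Z) : f.1 (x * z) = f.1 x := by
  have := congrArg (fun u : Representation.coindV D.subtype (chiRep (p := p) φ) => u.1 x)
    (hf z hz)
  exact this

/-- **(MACKEY-0a)** the `Z`-invariants of `Coind_D^G k'(φ)` are the `φ`-equivariant functions on the
`D`-set `G ⧸ Z`. -/
noncomputable def coindInvEquiv :
    coindInv p D Z φ ≃ₗ[ZMod p] eqFun φ (G ⧸ Z) where
  toFun f := ⟨fun q => Quotient.liftOn' q f.1.1 (fun a b hab => by
      have hab' : a⁻¹ * b ∈ Z := QuotientGroup.leftRel_apply.mp hab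
      have := coindInv_apply_mul p D Z φ f.2 a hab'
      rw [mul_inv_cancel_left] at this
      exact this.symm), by
    intro d q
    induction q using Quotient.inductionOn' with
    | _ x =>
      show f.1.1 ((d : G) • x) = (φ d : k') * f.1.1 x
      exact f.1.2 d x⟩
  map_add' f f' := by
    apply Subtype.ext
    funext q
    induction q using Quotient.inductionOn' with
    | _ x => rfl
  map_smul' c f := by
    apply Subtype.ext
    funext q
    induction q using Quotient.inductionOn' with
    | _ x => rfl
  invFun F := ⟨⟨fun x => (F : G ⧸ Z → k') (x : G ⧸ Z), by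
      intro d x
      exact F.2 d (x : G ⧸ Z)⟩, by
    intro z hz
    apply Subtype.ext
    funext x
    show (F : G ⧸ Z → k') ((x * z : G) : G ⧸ Z) = (F : G ⧸ Z → k') (x : G ⧸ Z)
    refine congrArg (F : G ⧸ Z → k') ?_
    refine (QuotientGroup.eq (s := Z) (a := x * z) (b := x)).mpr ?_
    rw [mul_inv_rev, inv_mul_cancel_right]
    exact Z.inv_mem hz⟩
  left_inv f := by
    apply Subtype.ext
    apply Subtype.ext
    funext x
    rfl
  right_inv F := by
    apply Subtype.ext
    funext q
    induction q using Quotient.inductionOn' with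
    | _ x => rfl


/-- **(MACKEY-0)** the dimension of the `Z`-invariants of `Coind_D^G k'(φ)`:
`[k' : 𝔽_p]` times the number of `D`-orbits on `G ⧸ Z` (= double cosets `D \ G / Z`) on whose
stabilisers (`= D ∩ g Z g⁻¹`) `φ` is trivial. -/
theorem finrank_coindInv [Finite G] :
    Module.finrank (ZMod p) (coindInv p D Z φ) =
      Module.finrank (ZMod p) k' * Nat.card {ω : Orb D (G ⧸ Z) // Good φ ω} := by
  rw [LinearEquiv.finrank_eq (coindInvEquiv p D Z φ), ← finrank_eqFun (φ := φ) (P := G ⧸ Z),
    Module.finrank_mul_finrank]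


section Corollaries

open Classical in
/-- (MACKEY-0, `Z = ⊤`) the `G`-invariants: `h⁰ = [k' : 𝔽_p] · [φ = 1]`. -/
theorem card_good_top :
    Nat.card {ω : Orb D (G ⧸ (⊤ : Subgroup G)) // Good φ ω} = if φ = 1 then 1 else 0 := by
  haveI : Subsingleton (G ⧸ (⊤ : Subgroup G)) := QuotientGroup.subsingleton_quotient_top
  haveI : Subsingleton (Orb D (G ⧸ (⊤ : Subgroup G))) :=
    ⟨fun a b => by
      induction a using Quotient.inductionOn' with
      | _ x =>
        induction b using Quotient.inductionOn' with
        | _ y => rw [Subsingleton.elim x y]⟩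
  have hgood : ∀ ω : Orb D (G ⧸ (⊤ : Subgroup G)), Good φ ω ↔ φ = 1 := by
    intro ω
    constructor
    · intro h
      ext d
      rw [h d (by rw [mem_stabilizer_iff]; exact Subsingleton.elim _ _)]
      rfl
    · intro h d _
      rw [h]; rfl
  by_cases hφ : φ = 1
  · rw [if_pos hφ, Nat.card_eq_one_iff_unique]
    refine ⟨⟨fun a b => Subtype.ext (Subsingleton.elim _ _)⟩,
      ⟨⟨Quotient.mk'' ((1 : G) : G ⧸ (⊤ : Subgroup G)), (hgood _).mpr hφ⟩⟩⟩
  · rw [if_neg hφ]
    haveI : IsEmpty {ω : Orb D (G ⧸ (⊤ : Subgroup G)) // Good φ ω} :=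
      ⟨fun ω => hφ ((hgood ω.1).mp ω.2)⟩
    exact Nat.card_of_isEmpty

/-- (MACKEY-0, `Z = ⊥`) every orbit is good and there are `[G : D]` of them. -/
theorem card_good_bot [Finite G] :
    Nat.card {ω : Orb D (G ⧸ (⊥ : Subgroup G)) // Good φ ω} = D.index := by
  classical
  have hfree : ∀ (d : D) (q : G ⧸ (⊥ : Subgroup G)), d • q = q → d = 1 := by
    intro d q hq
    induction q using Quotient.inductionOn' with
    | _ x =>
      have h1 : (((d : G) * x : G) : G ⧸ (⊥ : Subgroup G)) = (x : G ⧸ (⊥ : Subgroup G)) := hq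
      have h2 := QuotientGroup.eq.mp h1
      rw [Subgroup.mem_bot, mul_inv_rev, mul_assoc, inv_mul_eq_one] at h2
      have h3 : (d : G) = 1 := by
        have := congrArg (fun t => t * x⁻¹) h2
        simpa using this.symm
      exact Subtype.ext h3
  have hall : ∀ ω : Orb D (G ⧸ (⊥ : Subgroup G)), Good φ ω := by
    intro ω d hd
    rw [hfree d _ (mem_stabilizer_iff.mp hd), map_one]
  rw [Nat.card_congr (Equiv.subtypeUnivEquiv hall)]
  -- Burnside for a free action
  haveI : Fintype D := Fintype.ofFinite D
  haveI : Fintype (G ⧸ (⊥ : Subgroup G)) := Fintype.ofFinite _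
  haveI : Fintype (Orb D (G ⧸ (⊥ : Subgroup G))) := Fintype.ofFinite _
  have hB := MulAction.sum_card_fixedBy_eq_card_orbits_mul_card_group D (G ⧸ (⊥ : Subgroup G))
  have h1 : ∀ d : D, Fintype.card (fixedBy (G ⧸ (⊥ : Subgroup G)) d) =
      if d = 1 then Fintype.card (G ⧸ (⊥ : Subgroup G)) else 0 := by
    intro d
    by_cases hd : d = 1
    · subst hd
      rw [if_pos rfl]
      exact Fintype.card_congr (Equiv.subtypeUnivEquiv (fun q => by
        rw [mem_fixedBy, one_smul]))
    · rw [if_neg hd, Fintype.card_eq_zero_iff]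
      exact ⟨fun q => hd (hfree d q.1 q.2)⟩
  rw [Finset.sum_congr rfl (fun d _ => h1 d), Finset.sum_ite_eq' Finset.univ (1 : D),
    if_pos (Finset.mem_univ _)] at hB
  have h2 : Nat.card (G ⧸ (⊥ : Subgroup G)) = Nat.card G := by
    rw [← Subgroup.index_eq_card, Subgroup.index_bot]
  have h3 := Subgroup.card_mul_index D
  rw [Nat.card_eq_fintype_card (α := Orb D (G ⧸ (⊥ : Subgroup G)))]
  rw [← Nat.card_eq_fintype_card, ← Nat.card_eq_fintype_card (α := D), h2, ← h3,
    mul_comm (Nat.card D)] at hB
  have hD : 0 < Nat.card D := Nat.card_pos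
  rw [← Nat.card_eq_fintype_card] at hB
  rw [← Nat.card_eq_fintype_card]
  exact (Nat.eq_of_mul_eq_mul_right hD hB).symm

end Corollaries


section Consumer

/-- `h⁰(G, Coind_D^G k'(φ)) = [k' : 𝔽_p] · [φ = 1]`. -/
theorem finrank_coindInv_top [Finite G] [DecidableEq (D →* k'ˣ)] :
    Module.finrank (ZMod p) (coindInv p D ⊤ φ) =
      Module.finrank (ZMod p) k' * (if φ = 1 then 1 else 0) := by
  rw [finrank_coindInv, card_good_top]
  congr 2

/-- the invariants of the trivial subgroup are everything -/
theorem coindInv_bot : coindInv p D ⊥ φ = ⊤ := by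
  rw [eq_top_iff]
  rintro f - z hz
  rw [Subgroup.mem_bot.mp hz, map_one]
  rfl

/-- `dim_{𝔽_p} Coind_D^G k'(φ) = [k' : 𝔽_p] · [G : D]`. -/
theorem finrank_coindV [Finite G] :
    Module.finrank (ZMod p) (Representation.coindV D.subtype (chiRep (p := p) φ)) =
      Module.finrank (ZMod p) k' * D.index := by
  rw [← card_good_bot D φ, ← finrank_coindInv, coindInv_bot, finrank_top]

/-- the invariants of a cyclic subgroup are the fixed vectors of its generator -/
theorem coindInv_zpowers (c : G) :
    coindInv p D (Subgroup.zpowers c) φ =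
      LinearMap.ker (Representation.coind D.subtype (chiRep (p := p) φ) c - 1) := by
  ext f
  rw [LinearMap.mem_ker, LinearMap.sub_apply, sub_eq_zero, Module.End.one_apply]
  constructor
  · intro h
    exact h c (Subgroup.mem_zpowers c)
  · intro h z hz
    -- the elements fixing `f` form a subgroup containing `c`
    let S : Subgroup G :=
      { carrier := {z | Representation.coind D.subtype (chiRep (p := p) φ) z f = f}
        mul_mem' := fun {a b} ha hb => by
          show Representation.coind D.subtype (chiRep (p := p) φ) (a * b) f = f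
          rw [map_mul, Module.End.mul_apply, hb, ha]
        one_mem' := by
          show Representation.coind D.subtype (chiRep (p := p) φ) 1 f = f
          rw [map_one]; rfl
        inv_mem' := fun {a} ha => by
          show Representation.coind D.subtype (chiRep (p := p) φ) a⁻¹ f = f
          have h1 : Representation.coind D.subtype (chiRep (p := p) φ) a⁻¹
              (Representation.coind D.subtype (chiRep (p := p) φ) a f) = f := by
            rw [← Module.End.mul_apply, ← map_mul, inv_mul_cancel, map_one]; rfl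
          rw [ha] at h1
          exact h1 }
    have hle : Subgroup.zpowers c ≤ S := by
      rw [Subgroup.zpowers_le]; exact h
    exact hle hz

/-- goodness of the double coset `D g Z` in terms of `D ∩ g Z g⁻¹` -/
theorem good_mk_coset_iff (g : G) :
    Good φ (Quotient.mk'' (g : G ⧸ Z) : Orb D (G ⧸ Z)) ↔
      ∀ d : D, g⁻¹ * (d : G) * g ∈ Z → φ d = 1 := by
  rw [good_mk_iff]
  have key : ∀ d : D, d ∈ stabilizer D (g : G ⧸ Z) ↔ g⁻¹ * (d : G) * g ∈ Z := by
    intro d
    rw [mem_stabilizer_iff]
    show (((d : G) * g : G) : G ⧸ Z) = (g : G ⧸ Z) ↔ _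
    rw [QuotientGroup.eq]
    have : ((d : G) * g)⁻¹ * g = (g⁻¹ * (d : G) * g)⁻¹ := by group
    rw [this, Z.inv_mem_iff]
  constructor
  · intro h d hd
    exact h d ((key d).mpr hd)
  · intro h d hd
    exact h d ((key d).mp hd)

end Consumer

end Fermat.Agent.TW.Euler.Base.MackeyOrb
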