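/-
Program G (S56), block GW-Euler, base case, node (MACKEY-0), part 3: the consumer statements in
the literal vocabulary of `Base/{Defs,Contracts}.lean` (helper8): `hG _ 0`, `h0Loc ℓ`, `hInf`,
`finrank` of `X_φ = baseMod N D φ` as `[k' : 𝔽_p]` times a count of double cosets.  helper7.
-/
import Fermat.Agent.TW.Euler.Base.MackeyOrb.Coind
import Fermat.Agent.TW.Euler.Base.Contracts

set_option autoImplicit false
set_option linter.style.haveILetI false

open CategoryTheory Module ExtCitation
open Fermat.Agent.CFT Fermat.Agent.S55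

attribute [-instance] AddSubgroupClass.instZModModule

namespace Fermat.Agent.TW.Euler.Base.MackeyOrb

open MulAction Fermat.Agent.TW.Euler

local notation "GQ" => (AlgebraicClosure ℚ ≃ₐ[ℚ] AlgebraicClosure ℚ)

section Abstract

variable (p : ℕ) [Fact p.Prime] {G : Type} [Group G] (D : Subgroup G)
  {k' : Type} [Field k'] [Algebra (ZMod p) k'] (φ : D →* k'ˣ)

/-- The invariants of the restriction of `Coind_D^G k'(φ)` along `f : H →* G` are the invariants
of the subgroup `f.range`. -/
theorem invariants_comp_eq {H : Type*} [Group H] (f : H →* G) :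
    Representation.invariants ((Representation.coind D.subtype (chiRep (p := p) φ)).comp f) =
      coindInv p D f.range φ := by
  ext v
  rw [Representation.mem_invariants, mem_coindInv]
  constructor
  · rintro h _ ⟨x, rfl⟩
    exact h x
  · intro h x
    exact h (f x) ⟨x, rfl⟩

end Abstract

section Global

variable {p : ℕ} [Fact p.Prime] {T : Finset Nat.Primes}
  (N : Subgroup GQ) [N.Normal] (D : Subgroup (GQ ⧸ N)) {k' : Type} [Field k']
  [Algebra (ZMod p) k'] (φ : D →* k'ˣ)

/-- **(MACKEY-0, global)** `h⁰(G_T, X_φ) = [k' : 𝔽_p] · [φ = 1]`. -/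
theorem hG_zero_baseMod [DecidableEq (D →* k'ˣ)] (hN : (globalLevel T).IsLevel N) :
    hG (isSmooth_baseMod (p := p) N D hN φ) 0 =
      finrank (ZMod p) k' * (if φ = 1 then 1 else 0) := by
  have : N.FiniteIndex := (globalLevel T).finiteIndex hN
  have : Finite (GQ ⧸ N) := Subgroup.finite_quotient_of_finiteIndex
  unfold hG
  rw [LinearEquiv.finrank_eq (LC.h0Equiv (isSmooth_baseMod (p := p) N D hN φ))]
  show finrank (ZMod p) ↥(Representation.invariants
    ((Representation.coind D.subtype (chiRep (p := p) φ)).comp (QuotientGroup.mk' N))) = _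
  rw [invariants_comp_eq p D φ (QuotientGroup.mk' N), QuotientGroup.range_mk',
    finrank_coindInv_top]


/-- **(MACKEY-0, local)** `h⁰(G_ℓ, X_φ) = [k' : 𝔽_p] · #{D g Z_ℓ : φ trivial on D ∩ g Z_ℓ g⁻¹}`,
`Z_ℓ` the image of `primeLocalToGlobal ℓ` in `Ḡ = GQ ⧸ N`. -/
theorem h0Loc_baseMod [N.FiniteIndex] (ℓ : Nat.Primes) :
    h0Loc ℓ (baseMod (p := p) N D φ) =
      finrank (ZMod p) k' * Nat.card {ω : Orb D ((GQ ⧸ N) ⧸
        ((QuotientGroup.mk' N).comp (primeLocalToGlobal ℓ)).range) // Good φ ω} := by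
  have : Finite (GQ ⧸ N) := Subgroup.finite_quotient_of_finiteIndex
  unfold h0Loc
  show finrank (ZMod p) ↥(Representation.invariants
    ((Representation.coind D.subtype (chiRep (p := p) φ)).comp
      ((QuotientGroup.mk' N).comp (primeLocalToGlobal ℓ)))) = _
  rw [invariants_comp_eq p D φ, finrank_coindInv]

/-- **(MACKEY-0, archimedean)** `hInf X_φ = [k' : 𝔽_p] · #{D g ⟨c̄⟩ : φ trivial on D ∩ g ⟨c̄⟩ g⁻¹}`. -/
theorem hInf_baseMod [N.FiniteIndex] :
    hInf (baseMod (p := p) N D φ) =
      finrank (ZMod p) k' * Nat.card {ω : Orb D ((GQ ⧸ N) ⧸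
        Subgroup.zpowers (QuotientGroup.mk complexConjugation : GQ ⧸ N)) // Good φ ω} := by
  have : Finite (GQ ⧸ N) := Subgroup.finite_quotient_of_finiteIndex
  have h : hInf (baseMod (p := p) N D φ) = finrank (ZMod p) ↥(coindInv p D
      (Subgroup.zpowers (QuotientGroup.mk complexConjugation : GQ ⧸ N)) φ) := by
    rw [coindInv_zpowers]
    rfl
  rw [h, finrank_coindInv]

/-- `dim_{𝔽_p} X_φ = [k' : 𝔽_p] · [Ḡ : D]`. -/
theorem finrank_baseMod [N.FiniteIndex] :
    finrank (ZMod p) (baseMod (p := p) N D φ) = finrank (ZMod p) k' * D.index := by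
  have : Finite (GQ ⧸ N) := Subgroup.finite_quotient_of_finiteIndex
  show finrank (ZMod p) ↥(Representation.coindV D.subtype (chiRep (p := p) φ)) = _
  exact finrank_coindV p D φ

end Global

end Fermat.Agent.TW.Euler.Base.MackeyOrb
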