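/-
Program G (S56), block GW-Euler, base case, node (MACKEY-0), part 4: transport of the count of
good orbits along an equivariant bijection of `D`-sets (e.g. `Ḡ ⧸ Z_v ≃ {places of K' above v}`).
helper7.  Mathlib only.
-/
import Fermat.Agent.TW.Euler.Base.MackeyOrb.Orbits

set_option autoImplicit false
set_option linter.style.haveILetI false

namespace Fermat.Agent.TW.Euler.Base.MackeyOrb

open MulAction

variable {D : Type*} [Group D] {P P' : Type*} [MulAction D P] [MulAction D P']
  {K : Type*} [Field K] (φ : D →* Kˣ)

/-- Equivariant functions transport along an equivariant bijection. -/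
def eqFunCongr (e : P ≃ P') (he : ∀ (d : D) (x : P), e (d • x) = d • e x) :
    eqFun φ P ≃ₗ[K] eqFun φ P' where
  toFun F := ⟨fun y => (F : P → K) (e.symm y), by
    intro d y
    have h1 : e.symm (d • y) = d • e.symm y := by
      rw [Equiv.symm_apply_eq, he, Equiv.apply_symm_apply]
    show (F : P → K) (e.symm (d • y)) = (φ d : K) * (F : P → K) (e.symm y)
    rw [h1]
    exact F.2 d (e.symm y)⟩
  map_add' F F' := rfl
  map_smul' c F := rfl
  invFun F' := ⟨fun x => (F' : P' → K) (e x), by
    intro d x
    show (F' : P' → K) (e (d • x)) = (φ d : K) * (F' : P' → K) (e x)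
    rw [he]
    exact F'.2 d (e x)⟩
  left_inv F := by
    apply Subtype.ext
    funext x
    show (F : P → K) (e.symm (e x)) = (F : P → K) x
    rw [Equiv.symm_apply_apply]
  right_inv F' := by
    apply Subtype.ext
    funext y
    show (F' : P' → K) (e (e.symm y)) = (F' : P' → K) y
    rw [Equiv.apply_symm_apply]

/-- The number of good orbits is invariant under equivariant bijections. -/
theorem card_good_congr [Finite P] (e : P ≃ P') (he : ∀ (d : D) (x : P), e (d • x) = d • e x) :
    Nat.card {ω : Orb D P // Good φ ω} = Nat.card {ω : Orb D P' // Good φ ω} := by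
  haveI : Finite P' := Finite.of_equiv P e
  rw [← finrank_eqFun (φ := φ) (P := P), ← finrank_eqFun (φ := φ) (P := P'),
    LinearEquiv.finrank_eq (eqFunCongr φ e he)]

/-- The number of good orbits in terms of points: `∑` over orbits = count of good points divided
by orbit sizes is avoided; instead: an orbit is good iff one (any) of its points is. -/
theorem good_iff_exists_mem (ω : Orb D P) :
    Good φ ω ↔ ∃ x : P, Quotient.mk'' x = ω ∧ ∀ d ∈ stabilizer D x, φ d = 1 := by
  constructor
  · intro h
    refine ⟨ω.out, Quotient.out_eq' ω, h⟩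
  · rintro ⟨x, rfl, hx⟩
    exact (good_mk_iff x).mpr hx

end Fermat.Agent.TW.Euler.Base.MackeyOrb
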