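/-
Program G (S56), block GW-Euler, base case, node (PL-A) (generic transport for helper12's (PL)):
the count of good `D`-orbits is invariant under equivariant bijections (no finiteness), and for a
transitive `G`-set `P` with base point `x₀` and a subgroup `D ≤ G` it can be computed on
`G ⧸ stabilizer G x₀` (resp. `G ⧸ Z` with `stabilizer G x₀ = Z`).
helper7.  Mathlib only.
-/
import Fermat.Agent.TW.Euler.Base.MackeyOrb.Transport

set_option autoImplicit false
set_option linter.style.haveILetI false

namespace Fermat.Agent.TW.Euler.Base.MackeyOrb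

open MulAction

section congr

variable {D : Type*} [Group D] {P P' : Type*} [MulAction D P] [MulAction D P']
  {K : Type*} [Field K]

/-- An equivariant map induces a map on orbit spaces. -/
def orbMap (e : P → P') (he : ∀ (d : D) (x : P), e (d • x) = d • e x) : Orb D P → Orb D P' :=
  Quotient.map' e (by
    intro a b hab
    have h : a ∈ orbit D b := (orbitRel_apply).mp hab
    obtain ⟨d, hd⟩ := h
    have hd' : d • b = a := hd
    show (orbitRel D P') (e a) (e b)
    rw [orbitRel_apply]
    exact ⟨d, by show d • e b = e a; rw [← he, hd']⟩)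

theorem orbMap_mk (e : P → P') (he : ∀ (d : D) (x : P), e (d • x) = d • e x) (x : P) :
    orbMap e he (Quotient.mk'' x : Orb D P) = (Quotient.mk'' (e x) : Orb D P') := rfl

/-- An equivariant bijection induces a bijection of orbit spaces. -/
def orbCongr (e : P ≃ P') (he : ∀ (d : D) (x : P), e (d • x) = d • e x) : Orb D P ≃ Orb D P' where
  toFun := orbMap e he
  invFun := orbMap e.symm (by
    intro d y
    rw [Equiv.symm_apply_eq, he, Equiv.apply_symm_apply])
  left_inv ω := by
    induction ω using Quotient.inductionOn' with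
    | h x => rw [orbMap_mk, orbMap_mk, Equiv.symm_apply_apply]
  right_inv ω := by
    induction ω using Quotient.inductionOn' with
    | h y => rw [orbMap_mk, orbMap_mk, Equiv.apply_symm_apply]

theorem orbCongr_mk (e : P ≃ P') (he : ∀ (d : D) (x : P), e (d • x) = d • e x) (x : P) :
    orbCongr e he (Quotient.mk'' x : Orb D P) = (Quotient.mk'' (e x) : Orb D P') := rfl

theorem stabilizer_apply_eq (e : P ≃ P') (he : ∀ (d : D) (x : P), e (d • x) = d • e x) (x : P) :
    stabilizer D (e x) = stabilizer D x := by
  ext d
  rw [mem_stabilizer_iff, mem_stabilizer_iff, ← he, e.apply_eq_iff_eq]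

theorem good_orbCongr_iff (e : P ≃ P') (he : ∀ (d : D) (x : P), e (d • x) = d • e x)
    (φ : D →* Kˣ) (ω : Orb D P) : Good φ (orbCongr e he ω) ↔ Good φ ω := by
  induction ω using Quotient.inductionOn' with
  | h x => rw [orbCongr_mk, good_mk_iff, good_mk_iff, stabilizer_apply_eq e he]

/-- **(PL-A.1)** The number of good orbits is invariant under equivariant bijections
(no finiteness needed). -/
theorem card_good_congr_equiv (e : P ≃ P') (he : ∀ (d : D) (x : P), e (d • x) = d • e x)
    (φ : D →* Kˣ) :
    Nat.card {ω : Orb D P // Good φ ω} = Nat.card {ω : Orb D P' // Good φ ω} :=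
  Nat.card_congr ((orbCongr e he).subtypeEquiv (fun ω => (good_orbCongr_iff e he φ ω).symm))

end congr

section stab

variable {G : Type*} [Group G] {P : Type*} [MulAction G P] {K : Type*} [Field K]

/-- For a transitive action, `G ⧸ stabilizer G x₀ ≃ P`, `g ↦ g • x₀`. -/
noncomputable def quotientStabilizerEquiv [IsPretransitive G P] (x₀ : P) :
    (G ⧸ stabilizer G x₀) ≃ P :=
  Equiv.ofBijective (ofQuotientStabilizer G x₀)
    ⟨injective_ofQuotientStabilizer G x₀, by
      intro y
      obtain ⟨g, hg⟩ := exists_smul_eq G x₀ y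
      exact ⟨(g : G ⧸ stabilizer G x₀), by rw [ofQuotientStabilizer_mk]; exact hg⟩⟩

theorem quotientStabilizerEquiv_mk [IsPretransitive G P] (x₀ : P) (g : G) :
    quotientStabilizerEquiv x₀ (g : G ⧸ stabilizer G x₀) = g • x₀ := rfl

theorem quotientStabilizerEquiv_smul [IsPretransitive G P] (x₀ : P) (D : Subgroup G) (d : D)
    (q : G ⧸ stabilizer G x₀) :
    quotientStabilizerEquiv x₀ (d • q) = d • quotientStabilizerEquiv x₀ q := by
  show ofQuotientStabilizer G x₀ ((d : G) • q) = (d : G) • ofQuotientStabilizer G x₀ q
  exact ofQuotientStabilizer_smul G x₀ (d : G) q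

/-- **(PL-A.2)** For a transitive `G`-set `P` with base point `x₀` and `D ≤ G` acting by
restriction, the good `D`-orbits on `G ⧸ stabilizer G x₀` and on `P` are equinumerous. -/
theorem card_good_quotient_stabilizer (D : Subgroup G) [IsPretransitive G P] (x₀ : P)
    (φ : D →* Kˣ) :
    Nat.card {ω : Orb D (G ⧸ stabilizer G x₀) // Good φ ω} =
      Nat.card {ω : Orb D P // Good φ ω} :=
  card_good_congr_equiv (quotientStabilizerEquiv x₀) (quotientStabilizerEquiv_smul x₀ D) φ

/-- **(PL-A.3)** The same with a named subgroup `Z = stabilizer G x₀`. -/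
theorem card_good_quotient_of_stabilizer_eq (D Z : Subgroup G) [IsPretransitive G P] (x₀ : P)
    (hZ : stabilizer G x₀ = Z) (φ : D →* Kˣ) :
    Nat.card {ω : Orb D (G ⧸ Z) // Good φ ω} = Nat.card {ω : Orb D P // Good φ ω} := by
  subst hZ
  exact card_good_quotient_stabilizer D x₀ φ

end stab

end Fermat.Agent.TW.Euler.Base.MackeyOrb
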