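/-
Program G (S56), block GW-Euler, base case, node (PL-A), consumer form: the local terms of
`X_φ = baseMod N D φ` as `[k' : 𝔽_p]` times the number of good `D`-orbits on ANY transitive
`Ḡ`-set `P` (`Ḡ = GQ ⧸ N`) whose base point has the decomposition group as stabiliser
(e.g. the primes of the fixed field of `N` above `ℓ`, resp. its infinite places).  helper7.
-/
import Fermat.Agent.TW.Euler.Base.MackeyOrb.Consumer
import Fermat.Agent.TW.Euler.Base.MackeyOrb.Stabilizer

set_option autoImplicit false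
set_option linter.style.haveILetI false

open CategoryTheory Module ExtCitation
open Fermat.Agent.CFT Fermat.Agent.S55

attribute [-instance] AddSubgroupClass.instZModModule

namespace Fermat.Agent.TW.Euler.Base.MackeyOrb

open MulAction Fermat.Agent.TW.Euler

local notation "GQ" => (AlgebraicClosure ℚ ≃ₐ[ℚ] AlgebraicClosure ℚ)

variable {p : ℕ} [Fact p.Prime]
  (N : Subgroup GQ) [N.Normal] (D : Subgroup (GQ ⧸ N)) {k' : Type} [Field k']
  [Algebra (ZMod p) k'] (φ : D →* k'ˣ)

/-- **(PL-A, finite places)** `h⁰(G_ℓ, X_φ) = [k' : 𝔽_p] · #{good D-orbits on P}` for a transitive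
`Ḡ`-set `P` with a base point whose stabiliser is the image of `G_ℓ`. -/
theorem h0Loc_baseMod_of_stabilizer [N.FiniteIndex] (ℓ : Nat.Primes) {P : Type*}
    [MulAction (GQ ⧸ N) P] [IsPretransitive (GQ ⧸ N) P] (x₀ : P)
    (hZ : stabilizer (GQ ⧸ N) x₀ = ((QuotientGroup.mk' N).comp (primeLocalToGlobal ℓ)).range) :
    h0Loc ℓ (baseMod (p := p) N D φ) =
      finrank (ZMod p) k' * Nat.card {ω : Orb D P // Good φ ω} := by
  rw [h0Loc_baseMod, card_good_quotient_of_stabilizer_eq D _ x₀ hZ φ]

/-- **(PL-A, the real place)** `h⁰(G_∞, X_φ) = [k' : 𝔽_p] · #{good D-orbits on P}` for a transitive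
`Ḡ`-set `P` with a base point whose stabiliser is generated by complex conjugation. -/
theorem hInf_baseMod_of_stabilizer [N.FiniteIndex] {P : Type*}
    [MulAction (GQ ⧸ N) P] [IsPretransitive (GQ ⧸ N) P] (w₀ : P)
    (hZ : stabilizer (GQ ⧸ N) w₀ =
      Subgroup.zpowers (QuotientGroup.mk complexConjugation : GQ ⧸ N)) :
    hInf (baseMod (p := p) N D φ) =
      finrank (ZMod p) k' * Nat.card {ω : Orb D P // Good φ ω} := by
  rw [hInf_baseMod, card_good_quotient_of_stabilizer_eq D _ w₀ hZ φ]

end Fermat.Agent.TW.Euler.Base.MackeyOrb
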