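/-
Program G (S56), block GW-Euler, base case, node (PL-A), cyclic case: for `D` generated by `σ`
an orbit is good iff `φ σ ^ (size of the orbit) = 1`.  helper7.  Mathlib only.
-/
import Fermat.Agent.TW.Euler.Base.MackeyOrb.Orbits

set_option autoImplicit false
set_option linter.style.haveILetI false

namespace Fermat.Agent.TW.Euler.Base.MackeyOrb

open MulAction

variable {D : Type*} [Group D] {P : Type*} [MulAction D P] {K : Type*} [Field K]

/-- **(PL-A.4)** For `D = ⟨σ⟩`, the orbit of `x` is good iff `φ σ ^ period σ x = 1`. -/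
theorem good_mk_iff_pow_period (σ : D) (hσ : ∀ d : D, d ∈ Subgroup.zpowers σ) (φ : D →* Kˣ)
    (x : P) : Good φ (Quotient.mk'' x : Orb D P) ↔ φ σ ^ period σ x = 1 := by
  rw [good_mk_iff]
  constructor
  · intro h
    rw [← map_pow]
    exact h _ (by rw [mem_stabilizer_iff]; exact pow_period_smul σ x)
  · intro h d hd
    obtain ⟨j, rfl⟩ := Subgroup.mem_zpowers_iff.mp (hσ d)
    rw [mem_stabilizer_iff, zpow_smul_eq_iff_period_dvd] at hd
    obtain ⟨c, rfl⟩ := hd
    rw [map_zpow, zpow_mul, zpow_natCast, h, one_zpow]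

/-- For `D = ⟨σ⟩` the size of the orbit of `x` is the period of `σ` at `x`
(both are `0` when the orbit is infinite). -/
theorem card_orbit_eq_period (σ : D) (hσ : ∀ d : D, d ∈ Subgroup.zpowers σ) (x : P) :
    Nat.card (orbit D x) = period σ x := by
  have hset : orbit D x = orbit (Subgroup.zpowers σ) x := by
    ext y
    constructor
    · rintro ⟨d, rfl⟩
      exact ⟨⟨d, hσ d⟩, rfl⟩
    · rintro ⟨d, rfl⟩
      exact ⟨(d : D), rfl⟩
  rw [hset, Nat.card_congr (orbitZPowersEquiv σ x), Nat.card_zmod, period_eq_minimalPeriod]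

/-- **(PL-A.4')** For `D = ⟨σ⟩`, the orbit of `x` is good iff `φ σ ^ #(orbit of x) = 1`. -/
theorem good_mk_iff_pow_card_orbit (σ : D) (hσ : ∀ d : D, d ∈ Subgroup.zpowers σ) (φ : D →* Kˣ)
    (x : P) : Good φ (Quotient.mk'' x : Orb D P) ↔ φ σ ^ Nat.card (orbit D x) = 1 := by
  rw [card_orbit_eq_period σ hσ, good_mk_iff_pow_period σ hσ]

/-- **(PL-A.4'')** orbit form: for `D = ⟨σ⟩`, `ω` is good iff `φ σ ^ #ω = 1`. -/
theorem good_iff_pow_card_orbit (σ : D) (hσ : ∀ d : D, d ∈ Subgroup.zpowers σ) (φ : D →* Kˣ)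
    (ω : Orb D P) : Good φ ω ↔ φ σ ^ Nat.card ω.orbit = 1 := by
  induction ω using Quotient.inductionOn' with
  | h x => rw [orbitRel.Quotient.orbit_mk, good_mk_iff_pow_card_orbit σ hσ]

/-- The count of good orbits of a cyclic group `D = ⟨σ⟩`. -/
theorem card_good_cyclic (σ : D) (hσ : ∀ d : D, d ∈ Subgroup.zpowers σ) (φ : D →* Kˣ) :
    Nat.card {ω : Orb D P // Good φ ω} =
      Nat.card {ω : Orb D P // φ σ ^ Nat.card ω.orbit = 1} :=
  Nat.card_congr (Equiv.subtypeEquivRight (fun ω => good_iff_pow_card_orbit σ hσ φ ω))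

end Fermat.Agent.TW.Euler.Base.MackeyOrb
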